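import Fermat.Agent.MUL.Orig.E.Desc.Defs
import Fermat.Agent.MUL.Lib.FF.Kum.KumFinal

/-!
# E' / Desc / Dev / Iface : the two PCS inputs of the dévissage (seat DESC-DEV, helper90)

`DevStatement` (E/Desc/Defs.lean) is proved in `Dev/Main.lean` from the two facts below
(blueprint-E-S15-v2, section 2.4 (i), (ii); seat DESC-PCS):

* `PcsEt p l' Ap Al` : a normal open subgroup `N` of `G_ℚ` with abelian quotient of exponent `l'`
  which contains the inertia groups at `Ap`, at `Al` and at all places over the primes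
  `r ∉ {p, l'}` is everything (Minkowski);
* `PcsMu p l' Ap Al` : a Kummer cocycle `κ : G_ℚ → μ_{l'}` (`IsKum`: continuous, trivial on the
  inertia groups at `Ap` and at all places over `r ∉ {p, l'}`, and equal to `σ ↦ σ a / a` on the
  decomposition group at `Al` for a unit `a` at `Al`) is `σ ↦ σ ζ / ζ` for some `ζ` with
  `ζ ^ (2 l') = 1`.
-/

set_option autoImplicit false

namespace Fermat.Agent.EDesc

local notation "Qb" => AlgebraicClosure ℚ
local notation "GQb" => (AlgebraicClosure ℚ ≃ₐ[ℚ] AlgebraicClosure ℚ)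

/-- **PCS (i)** (Minkowski): a normal open subgroup of `G_ℚ`, with abelian quotient killed by
`l'`, which contains the inertia groups at all places over `r ∉ {p, l'}`, at `Ap` and at `Al`,
is the whole group. -/
def PcsEt (p l' : ℕ) (Ap Al : ValuationSubring Qb) : Prop :=
  ∀ N : Subgroup GQb, N.Normal →
    (∃ E : IntermediateField ℚ Qb, FiniteDimensional ℚ E ∧ E.fixingSubgroup ≤ N) →
    (∀ σ : GQb, σ ^ l' ∈ N) → (∀ σ τ : GQb, σ * τ * σ⁻¹ * τ⁻¹ ∈ N) →
    (∀ r : ℕ, r.Prime → r ∉ ({p, l'} : Set ℕ) → ∀ A : ValuationSubring Qb, A.LiesOverPrime r →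
      A.inertiaSubgroupIn ℚ ≤ N) →
    Ap.inertiaSubgroupIn ℚ ≤ N → Al.inertiaSubgroupIn ℚ ≤ N → N = ⊤

/-- A Kummer cocycle `κ : G_ℚ → μ_{l'} ⊆ ℚ̄ˣ`: continuous, unramified outside `l'` (at the place
`Ap` over `p` and at all places over the primes `r ∉ {p, l'}`), and the Kummer class of a unit
at the place `Al` over `l'`. -/
structure IsKum (p l' : ℕ) (Ap Al : ValuationSubring Qb) (κ : GQb → Qb) : Prop where
  pow : ∀ σ : GQb, κ σ ^ l' = 1
  coc : ∀ σ τ : GQb, κ (σ * τ) = κ σ * σ (κ τ)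
  cts : ∃ E : IntermediateField ℚ Qb, FiniteDimensional ℚ E ∧
    ∀ σ τ : GQb, τ ∈ E.fixingSubgroup → κ (σ * τ) = κ σ
  unram : ∀ r : ℕ, r.Prime → r ∉ ({p, l'} : Set ℕ) → ∀ A : ValuationSubring Qb,
    A.LiesOverPrime r → ∀ σ ∈ A.inertiaSubgroupIn ℚ, κ σ = 1
  unram_p : ∀ σ ∈ Ap.inertiaSubgroupIn ℚ, κ σ = 1
  unit : ∃ a : Qb, a ∈ Al ∧ a⁻¹ ∈ Al ∧ a ≠ 0 ∧
    ∀ σ ∈ Al.decompositionSubgroup ℚ, κ σ * a = σ a

/-- **PCS (ii)**: a Kummer cocycle is the coboundary of a root of unity of order dividing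
`2 l'`. -/
def PcsMu (p l' : ℕ) (Ap Al : ValuationSubring Qb) : Prop :=
  ∀ κ : GQb → Qb, IsKum p l' Ap Al κ → ∃ ζ : Qb, ζ ^ (2 * l') = 1 ∧ ∀ σ : GQb, κ σ * ζ = σ ζ

end Fermat.Agent.EDesc
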